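/-
S43 (route TWX), block TWP: CONTRACTS.

* `GWSlackStatement p`  : `S56.GW.GW_main` with a slack `sl` (producer: block GWS);
* `LocalContractS`      : local contract with a deficiency `d` (`dim L_v + d f ≤ h⁰(D_v, ad⁰) + e f`);
* `StrictAt r c v`      : the cocycle `c` is a coboundary on the decomposition group `Dl v`;
* `TWStrictStatement`   : the export of the block (consumer: block TAN / COUNT).
-/
import Fermat.Agent.S56.B.Main

set_option autoImplicit false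

open Matrix Module ExtCitation Polynomial

noncomputable section

namespace Fermat.Agent.S43.TWP

open Fermat.Agent.S53 (G M2)
open Fermat.Agent.S56
open Fermat.Agent.S56.B
open Fermat.Agent.S56.C (ad rm IsCoc IsCob liftMat)
open Fermat.Agent.PT

/-- (GWS): the statement of `GW.GW_main` with a slack `sl`. -/
def GWSlackStatement (p : ℕ) [Fact p.Prime] : Prop :=
  ∀ (Smin T₀ : Finset Nat.Primes), pPrime p ∈ Smin →
  ∀ (A B : Type) [AddCommGroup A] [Module (ZMod p) A] [AddCommGroup B] [Module (ZMod p) B]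
    [Module.Finite (ZMod p) A] [Module.Finite (ZMod p) B]
    (ρ : Representation (ZMod p) GQ A) (σ : Representation (ZMod p) GQ B)
    (β : A →ₗ[ZMod p] B →ₗ[ZMod p] ZMod p),
    IsSmoothRep (LS Smin) ρ → IsSmoothRep (LS Smin) σ → GW.IsPairingOn ⊤ ρ σ (cycRep p) β →
    Function.Bijective β → Function.Bijective β.flip →
  ∀ (f sl : ℕ), invOf ⊤ ρ = ⊥ → finrank (ZMod p) (G2.plusPart σ) + f ≤ finrank (ZMod p) B →
  ∀ (𝓛 : GW.LocCond ρ), (∀ v ∈ Smin, Module.Finite (ZMod p) (𝓛 v)) →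
    (∑ v ∈ Smin, finrank (ZMod p) (𝓛 v) + sl ≤
      ∑ v ∈ Smin, finrank (ZMod p) (invOf (Dl v) ρ) + f) →
    (∀ v ∉ Smin, Module.Finite (ZMod p) (GW.Lur ρ v) ∧
      finrank (ZMod p) (GW.Lur ρ v) ≤ finrank (ZMod p) (invOf (Dl v) ρ)) →
  ∀ (P : ℕ → Nat.Primes → Prop),
    (∀ n q, P n q → Module.Finite (ZMod p) (H1 Lall (⊤ ⊓ Dl q) ρ) ∧
      finrank (ZMod p) (H1 Lall (⊤ ⊓ Dl q) ρ) ≤ finrank (ZMod p) (invOf (Dl q) ρ) + f) →
    (∀ n (T S' : Finset Nat.Primes), Smin ⊆ S' → ∀ y : H1 (LS S') ⊤ σ, y ≠ 0 →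
      ∃ q ∉ T, P n q ∧ GW.locv S' σ q y ≠ 0) →
    ∃ r : ℕ, ∀ n : ℕ, ∃ Q : Finset Nat.Primes, Q.card = r ∧ Disjoint Q T₀ ∧ (∀ q ∈ Q, P n q) ∧
      Finite (GW.Sel (Smin ∪ Q) ρ (GW.condQ Smin 𝓛 Q)) ∧
      Nat.card (GW.Sel (Smin ∪ Q) ρ (GW.condQ Smin 𝓛 Q)) * p ^ sl ≤ p ^ (r * f)

variable {k : Type} [Field k]

/-- Local contract at `v` with excess `e` and deficiency `d`: a subspace `Lv` of `H¹(D_v, ad⁰)` with
`dim Lv + d [k : F_p] ≤ h⁰(D_v, ad⁰) + e [k : F_p]` containing the classes of all cocycles whose inhomogeneous function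
satisfies `Pr`. -/
def LocalContractS (p : ℕ) [Fact p.Prime] [Algebra (ZMod p) k] (r : G →* GL (Fin 2) k)
    (v : Nat.Primes) (e d : ℕ) (Pr : (G → M2 k) → Prop) : Prop :=
  ∃ Lv : Submodule (ZMod p) (H1 Lall (⊤ ⊓ Dl v) (adFp p r)),
    Module.Finite (ZMod p) Lv ∧
    finrank (ZMod p) Lv + d * finrank (ZMod p) k ≤
      finrank (ZMod p) (invOf (Dl v) (adFp p r)) + e * finrank (ZMod p) k ∧
    ∀ z : Z1 Lall (⊤ ⊓ Dl v) (adFp p r), Pr (inhOf z.1) → H1.mk Lall (⊤ ⊓ Dl v) (adFp p r) z ∈ Lv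

theorem LocalContractS.of_localContract {p : ℕ} [Fact p.Prime] [Algebra (ZMod p) k]
    {r : G →* GL (Fin 2) k} {v : Nat.Primes} {e : ℕ} {Pr : (G → M2 k) → Prop}
    (h : LocalContract p r v e Pr) : LocalContractS p r v e 0 Pr := by
  obtain ⟨Lv, h1, h2, h3⟩ := h
  exact ⟨Lv, h1, by simpa using h2, h3⟩

theorem LocalContractS.mono {p : ℕ} [Fact p.Prime] [Algebra (ZMod p) k]
    {r : G →* GL (Fin 2) k} {v : Nat.Primes} {e d : ℕ} {Pr Pr' : (G → M2 k) → Prop}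
    (h : LocalContractS p r v e d Pr) (hPr : ∀ c, Pr' c → Pr c) : LocalContractS p r v e d Pr' := by
  obtain ⟨Lv, h1, h2, h3⟩ := h
  exact ⟨Lv, h1, h2, fun z hz => h3 z (hPr _ hz)⟩

/-- the STRICT condition at `v`: `c` is a coboundary on the decomposition group `Dl v`
(`X = 0`: `c` vanishes on `Dl v`). -/
def StrictAt (r : G →* GL (Fin 2) k) (c : G → M2 k) (v : Nat.Primes) : Prop :=
  ∃ X : M2 k, X.trace = 0 ∧ ∀ σ ∈ Dl v, c σ = ad (r σ) X - X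

/-- `r` is scalar on the decomposition group `Dl v`. -/
def ScalarAt (r : G →* GL (Fin 2) k) (v : Nat.Primes) : Prop :=
  ∀ σ ∈ Dl v, ∃ a : k, rm r σ = a • (1 : M2 k)

/-- **Export of the block TWP** (general form).  `Sig` = finite set of primes containing `p` outside which `ρ` is unramified,
`Prv v` the local conditions at `v ∈ Sig`, of excess `1` at `p`, `0` elsewhere, and deficiency `d v`. -/
def TWSlackStatement (p : ℕ) [Fact p.Prime] : Prop :=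
  ∀ (k : Type) [Field k] [Finite k] [Algebra (ZMod p) k]
    (ρ : ResidualGaloisRep k), ρ.IsAbsolutelyIrreducible →
    (GaloisRepAdic.ofResidualGaloisRep ρ).DetIsCyclotomic p →
    (∀ σ : G, ∃ α β : k, LinearMap.charpoly (ρ.ρ σ) = (X - C α) * (X - C β)) →
    (∀ (K : Type) [Field K] [Algebra k K] (H : Subgroup G), H.index = 2 →
      ∀ V : Submodule K (ρ.baseChange K).V,
        (∀ σ ∈ H, ∀ x ∈ V, (ρ.baseChange K).ρ σ x ∈ V) → V = ⊥ ∨ V = ⊤) →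
  ∀ (S Sig : Finset ℕ), p ∈ Sig → Sig ⊆ S →
    (∀ q : ℕ, q.Prime → q ∉ Sig → ρ.IsUnramifiedAt q) →
  ∀ (Prv : Nat.Primes → (G → M2 k) → Prop) (d : Nat.Primes → ℕ),
    (∀ v : Nat.Primes, (v : ℕ) ∈ Sig →
      LocalContractS p (T.matRep ρ) v (if (v : ℕ) = p then 1 else 0) (d v) (Prv v)) →
    ∃ n₀ : ℕ, ∀ n : ℕ, ∃ qv : Fin n₀ → ℕ, Function.Injective qv ∧
      (∀ i, (qv i).Prime ∧ qv i ∉ S ∧ p ^ (n + 1) ∣ qv i - 1) ∧
      (∀ i, ∀ P : ValuationSubring Qbar, P.LiesOverPrime (qv i) →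
        ∀ φ : G, P.IsFrobeniusAt φ (qv i) →
          ∃ α β : k, α ≠ β ∧ LinearMap.charpoly (ρ.ρ φ) = (X - C α) * (X - C β)) ∧
      ∃ T₁ : Finset (G → M2 k),
        T₁.card * Nat.card k ^ (∑ v ∈ toPrimes Sig, d v) ≤ Nat.card k ^ n₀ ∧
        (∃ t ∈ T₁, IsCob (T.matRep ρ) t) ∧
        ∀ c, IsCoc (T.matRep ρ) c → C.Smooth c → C.TraceZero c →
          (∀ q : ℕ, q.Prime → q ∉ Sig ∪ Finset.univ.image qv → C.UnramAt c q) →
          (∀ v : Nat.Primes, (v : ℕ) ∈ Sig → Prv v c) → ∃ t ∈ T₁, IsCob (T.matRep ρ) (c - t)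

end Fermat.Agent.S43.TWP
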