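/-
S43 (route TWX), block TWP: MAIN ASSEMBLY = copy of `S56.B.tw_contract` with a slack.
`GWSlackStatement` + local contracts with deficiency  ==>  Taylor-Wiles primes with the bound
`#(Selmer classes) * #k ^ (∑ d v) ≤ #k ^ n₀` (at the level of functions).
-/
import Fermat.Agent.S43.TWP.Contract

set_option autoImplicit false

open Matrix Module ExtCitation Polynomial

noncomputable section

namespace Fermat.Agent.S43.TWP

open Fermat.Agent.S53 (G M2)
open Fermat.Agent.S56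
open Fermat.Agent.S56.B
open Fermat.Agent.S56.C (ad rm IsCoc IsCob liftMat)
open Fermat.Agent.PT

/-- **Main theorem of block TWP.** -/
theorem twSlack_of (p : ℕ) [Fact p.Prime] (hp2 : p ≠ 2)
    (hGW : GWSlackStatement p) (hUr : GW.UrBoundStatement p) (hTame : GW.TameBoundStatement p) :
    TWSlackStatement p := by
  classical
  intro k _ _ _ ρ habs hdet hsplit hTW S Smin hpSmin hSmin hunrN Prv d hloc
  set r := T.matRep ρ with hrdef
  set f := finrank (ZMod p) k with hf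
  have hr : RSmooth r := rSmooth_matRep ρ
  have hdc : DetCyc p r := detCyc_matRep ρ p hdet
  have hur_r : ∀ q : Nat.Primes, q ∉ toPrimes Smin → RUnramAt r q := by
    intro q hq
    rw [mem_toPrimes] at hq
    exact (rUnramAt_matRep_iff ρ q).2 (hunrN q q.2 hq)
  have hpS' : pPrime p ∈ toPrimes Smin := by
    rw [mem_toPrimes]
    exact hpSmin
  -- the local conditions
  let 𝓛 : GW.LocCond (adFp p r) := fun v =>
    if h : (v : ℕ) ∈ Smin then Classical.choose (hloc v h) else ⊥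
  have h𝓛 : ∀ v : Nat.Primes, ∀ h : (v : ℕ) ∈ Smin, 𝓛 v = Classical.choose (hloc v h) := by
    intro v h
    simp only [𝓛, dif_pos h]
  have h𝓛spec : ∀ v : Nat.Primes, (v : ℕ) ∈ Smin → Module.Finite (ZMod p) (𝓛 v) ∧
      finrank (ZMod p) (𝓛 v) + d v * f ≤ finrank (ZMod p) (invOf (Dl v) (adFp p r)) +
        (if (v : ℕ) = p then 1 else 0) * f ∧
      ∀ z : Z1 Lall (⊤ ⊓ Dl v) (adFp p r), Prv v (inhOf z.1) →
        H1.mk Lall (⊤ ⊓ Dl v) (adFp p r) z ∈ 𝓛 v := by
    intro v h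
    rw [h𝓛 v h]
    exact Classical.choose_spec (hloc v h)
  set D : ℕ := ∑ v ∈ toPrimes Smin, d v with hD
  have hsum : ∑ v ∈ toPrimes Smin, finrank (ZMod p) (𝓛 v) + D * f ≤
      ∑ v ∈ toPrimes Smin, finrank (ZMod p) (invOf (Dl v) (adFp p r)) + f := by
    have h1 : ∑ v ∈ toPrimes Smin, (finrank (ZMod p) (𝓛 v) + d v * f) ≤
        ∑ v ∈ toPrimes Smin, (finrank (ZMod p) (invOf (Dl v) (adFp p r)) +
          (if (v : ℕ) = p then 1 else 0) * f) :=
      Finset.sum_le_sum fun v hv => (h𝓛spec v (mem_toPrimes.1 hv)).2.1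
    rw [Finset.sum_add_distrib, Finset.sum_add_distrib, ← Finset.sum_mul] at h1
    refine h1.trans (le_of_eq ?_)
    congr 1
    rw [Finset.sum_eq_single (pPrime p)]
    · simp
    · intro b _ hb
      have : (b : ℕ) ≠ p := fun h => hb (Subtype.ext h)
      simp [this]
    · intro h
      exact absurd hpS' h
  obtain ⟨n₀, hn₀⟩ := hGW (toPrimes Smin) (toPrimes S) hpS' (Ad0 k) (Ad0 k) (adFp p r)
    (adDetFp p r) (beta p) (isSmoothRep_adFp p r _ hr hur_r) (isSmoothRep_adDetFp p r _ hr hur_r)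
    (isPairingOn_beta p r hdc) (beta_bijective p hp2) (beta_flip_bijective p hp2) f (D * f)
    (invOf_top_adFp p r hp2 (T.split_matRep ρ hsplit) (T.irr2_matRep ρ habs hTW))
    (finrank_plusPart_add_le p r hp2 hdc) 𝓛
    (fun v hv => (h𝓛spec v (mem_toPrimes.1 hv)).1) hsum
    (fun v hv => hUr (Ad0 k) (adFp p r) (isSmoothRep_adFp_Lall p r hr) v
      (unramAt_adFp p r (hur_r v hv)))
    (fun n q => IsTW r p S n q)
    (fun n q h => finrank_H1_TW_le p r hp2 hUr hTame hr (hSmin hpSmin)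
      (hur_r q fun hq => h.notMem (hSmin (mem_toPrimes.1 hq))) h)
    (fun n T₁ S' _ y hy => tw_supply p ρ hp2 habs hdet hsplit hTW S
      (fun q hq hqS => hunrN q hq fun h => hqS (hSmin h)) n T₁ S' y hy)
  refine ⟨n₀, fun n => ?_⟩
  obtain ⟨Q, hQcard, -, hQ, hfin, hcard⟩ := hn₀ n
  let e : Q ≃ Fin n₀ := Q.equivFinOfCardEq hQcard
  let qv : Fin n₀ → ℕ := fun i => (((e.symm i : Q) : Nat.Primes) : ℕ)
  have hqvmem : ∀ i, ((e.symm i : Q) : Nat.Primes) ∈ Q := fun i => (e.symm i).2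
  have himage : ∀ q : Nat.Primes, (q : ℕ) ∈ Finset.univ.image qv ↔ q ∈ Q := by
    intro q
    rw [Finset.mem_image]
    constructor
    · rintro ⟨i, -, hi⟩
      have : ((e.symm i : Q) : Nat.Primes) = q := Subtype.ext hi
      rw [← this]
      exact hqvmem i
    · intro hq
      exact ⟨e ⟨q, hq⟩, Finset.mem_univ _, by simp [qv]⟩
  refine ⟨qv, ?_, fun i => ?_, fun i P hP φ hφ => ?_, ?_⟩
  · intro i j hij
    have h1 : ((e.symm i : Q) : Nat.Primes) = ((e.symm j : Q) : Nat.Primes) := Subtype.ext hij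
    exact e.symm.injective (Subtype.ext h1)
  · have h := hQ _ (hqvmem i)
    exact ⟨((e.symm i : Q) : Nat.Primes).2, h.notMem, h.dvd⟩
  · obtain ⟨α, β, hαβ, h⟩ := (hQ _ (hqvmem i)).reg P hP φ hφ
    refine ⟨α, β, hαβ, ?_⟩
    rw [← T.charpoly_matRep]
    exact h
  · have hmemS'' : ∀ q : Nat.Primes, q ∉ toPrimes Smin ∪ Q →
        (q : ℕ) ∉ Smin ∪ Finset.univ.image qv := by
      intro q hq hq'
      apply hq
      rw [Finset.mem_union] at hq' ⊢
      rcases hq' with h | h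
      · exact Or.inl (mem_toPrimes.2 h)
      · exact Or.inr ((himage q).1 h)
    obtain ⟨T₁, hT, hT0, hTc⟩ := exists_reps p r (toPrimes Smin ∪ Q) hr
      (fun q hq => hur_r q fun h => hq (Finset.mem_union_left _ h))
      (GW.condQ (toPrimes Smin) 𝓛 Q) hfin
      (Nat.card (GW.Sel (toPrimes Smin ∪ Q) (adFp p r) (GW.condQ (toPrimes Smin) 𝓛 Q))) le_rfl
      (fun c => IsCoc r c ∧ C.Smooth c ∧ C.TraceZero c ∧
        (∀ q : ℕ, q.Prime → q ∉ Smin ∪ Finset.univ.image qv → C.UnramAt c q) ∧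
        (∀ v : Nat.Primes, (v : ℕ) ∈ Smin → Prv v c))
      (fun c hc => ⟨hc.1, hc.2.1, hc.2.2.1, fun q hq => hc.2.2.2.1 q q.2 (hmemS'' q hq)⟩)
      (by
        intro c hc z hz
        rw [GW.mem_Sel]
        intro v hv
        obtain ⟨hz1, he⟩ := locv_mk p r (toPrimes Smin ∪ Q) v z
        rw [he]
        unfold GW.condQ
        split_ifs with h1 h2
        · refine (h𝓛spec v (mem_toPrimes.1 h1)).2.2 ⟨z.1, hz1⟩ ?_
          show Prv v (inhOf z.1)
          rw [hz]
          exact hc.2.2.2.2 v (mem_toPrimes.1 h1)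
        · exact Submodule.mem_top
        · exact absurd hv (by rw [Finset.mem_union]; tauto))
    refine ⟨T₁, ?_, hT0, fun c h1 h2 h3 h4 h5 => hTc c ⟨h1, h2, h3, h4, h5⟩⟩
    rw [card_eq_pow_finrank (k := k) p, ← pow_mul, ← pow_mul, mul_comm f D, mul_comm f n₀]
    exact (Nat.mul_le_mul_right _ hT).trans hcard

end Fermat.Agent.S43.TWP
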