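/-
S43 (route TWX), block TWP: if `r` is smooth, unramified at `q` and `r(Frob)` is a scalar for ONE place above `q` and ONE
Frobenius element at this place, then `r` is scalar on ALL decomposition groups above `q`
(`D / I` is topologically generated by Frobenius; scalar matrices are invariant by conjugation).
-/
import Fermat.Agent.S43.TWP.Contract
import Fermat.Agent.S56.F.LF.FrobEll
import Fermat.Agent.S56.T.AllFrob
import Fermat.Agent.S56.B.Res

set_option autoImplicit false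

open Matrix Module ExtCitation Polynomial
open scoped Pointwise

noncomputable section

namespace Fermat.Agent.S43.TWP

open Fermat.Agent.S53 (G M2)
open Fermat.Agent.S56
open Fermat.Agent.S56.B
open Fermat.Agent.S56.C (ad rm IsCoc IsCob liftMat)
open Fermat.Agent.PT

variable {k : Type} [Field k]

/-- the Frobenius elements of the Prelude are Frobenius elements of `PT.Local`. -/
theorem isFrob_of_isFrobeniusAt (P : Local.Plc) {φ : G} (hφ : P.A.IsFrobeniusAt φ P.ℓ) :
    Local.IsFrob P P.ℓ φ := by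
  obtain ⟨h1, h2⟩ := (T.AllFrob_isFrobeniusAt_iff P.A φ P.ℓ).1 hφ
  exact ⟨h1, fun x hx => (P.A.mem_nonunits_iff).1 (h2 x hx)⟩

/-- one place. -/
theorem scalar_on_dec {r : G →* GL (Fin 2) k} (hr : RSmooth r) {q : ℕ} (hq : q.Prime)
    (hun : RUnramAt r q) {P : ValuationSubring Qbar} (hP : P.LiesOverPrime q) {φ : G}
    (hφ : P.IsFrobeniusAt φ q) {a : k} (ha : rm r φ = a • (1 : M2 k)) :
    ∀ σ ∈ P.decompositionSubgroup ℚ, ∃ b : k, rm r σ = b • (1 : M2 k) := by
  intro σ hσ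
  obtain ⟨F0, hF, hFr⟩ := hr
  have := hF
  obtain ⟨j, τ, hτ, u, -, hu, rfl⟩ :=
    S56.F.LF.dec_gen (⟨P, q, hq, hP⟩ : Local.Plc) (isFrob_of_isFrobeniusAt ⟨P, q, hq, hP⟩ hφ) F0
      (σ := σ) hσ
  refine ⟨a ^ j, ?_⟩
  have h1 : r τ = 1 := hun P hP τ hτ
  have h2 : r u = 1 := hFr u hu
  have h3 : rm r (φ ^ j * τ * u) = (rm r φ) ^ j := by
    simp only [rm, map_mul, map_pow, h1, h2, mul_one, Units.val_pow_eq_pow_val]
  rw [h3, ha, _root_.smul_pow, one_pow]

/-- a conjugate of a scalar matrix. -/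
theorem rm_conj_of_scalar (r : G →* GL (Fin 2) k) (g φ : G) {a : k} (ha : rm r φ = a • (1 : M2 k)) :
    rm r (g * φ * g⁻¹) = a • (1 : M2 k) := by
  have h1 : rm r (g * φ * g⁻¹) = rm r g * rm r φ * rm r g⁻¹ := by
    simp only [rm, map_mul, Units.val_mul]
  have h2 : rm r g * rm r g⁻¹ = 1 := by
    simp only [rm]
    rw [← Units.val_mul, ← map_mul, mul_inv_cancel, map_one, Units.val_one]
  rw [h1, ha, Matrix.mul_smul, Matrix.mul_one, Matrix.smul_mul, h2]

/-- all places.  The conclusion is `GWS.ScalarAt r q` by definition. -/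
theorem scalar_on_all_dec {r : G →* GL (Fin 2) k} (hr : RSmooth r) {q : ℕ} (hq : q.Prime)
    (hun : RUnramAt r q) {P : ValuationSubring Qbar} (hP : P.LiesOverPrime q) {φ : G}
    (hφ : P.IsFrobeniusAt φ q) {a : k} (ha : rm r φ = a • (1 : M2 k)) :
    ∀ P' : ValuationSubring Qbar, P'.LiesOverPrime q →
      ∀ σ ∈ P'.decompositionSubgroup ℚ, ∃ b : k, rm r σ = b • (1 : M2 k) := by
  intro P' hP'
  obtain ⟨g, rfl⟩ := PT.exists_smul_eq_of_liesOverPrime hq P P' hP hP'
  exact scalar_on_dec hr hq hun hP' (T.isFrobeniusAt_conj hφ g) (rm_conj_of_scalar r g φ ha)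

/-- the form of the block TWP. -/
theorem scalarAt_of_frob {r : G →* GL (Fin 2) k} (hr : RSmooth r) {v : Nat.Primes}
    (hun : RUnramAt r v) {P : ValuationSubring Qbar} (hP : P.LiesOverPrime (v : ℕ)) {φ : G}
    (hφ : P.IsFrobeniusAt φ (v : ℕ)) {a : k} (ha : rm r φ = a • (1 : M2 k)) : ScalarAt r v :=
  scalar_on_all_dec hr v.2 hun hP hφ ha _ (WB.primeLocalPlace_liesOver v)

section residual

variable (ρ : ResidualGaloisRep k)

theorem rm_matRep_of_scalar {φ : G} {a : k} (ha : ρ.ρ φ = a • (1 : Module.End k ρ.V)) :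
    rm (T.matRep ρ) φ = a • (1 : M2 k) := by
  rw [rm, T.coe_matRep, ha, map_smul, map_one]

/-- **Residual version, all places.**  The conclusion is `GWS.ScalarAt (T.matRep ρ) q` by definition. -/
theorem scalar_matRep_on_all_dec {q : ℕ} (hq : q.Prime) (hun : ρ.IsUnramifiedAt q)
    {P : ValuationSubring Qbar} (hP : P.LiesOverPrime q) {φ : G} (hφ : P.IsFrobeniusAt φ q) {a : k}
    (ha : ρ.ρ φ = a • (1 : Module.End k ρ.V)) :
    ∀ P' : ValuationSubring (AlgebraicClosure ℚ), P'.LiesOverPrime q →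
      ∀ σ ∈ P'.decompositionSubgroup ℚ, ∃ b : k, rm (T.matRep ρ) σ = b • (1 : M2 k) :=
  scalar_on_all_dec (rSmooth_matRep ρ) hq ((rUnramAt_matRep_iff ρ q).2 hun) hP hφ
    (rm_matRep_of_scalar ρ ha)

/-- **Residual version (TWP form).** -/
theorem scalarAt_matRep_of_frob {v : Nat.Primes} (hun : ρ.IsUnramifiedAt v)
    {P : ValuationSubring Qbar} (hP : P.LiesOverPrime (v : ℕ)) {φ : G}
    (hφ : P.IsFrobeniusAt φ (v : ℕ)) {a : k} (ha : ρ.ρ φ = a • (1 : Module.End k ρ.V)) :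
    ScalarAt (T.matRep ρ) v :=
  scalarAt_of_frob (rSmooth_matRep ρ) ((rUnramAt_matRep_iff ρ v).2 hun) hP hφ
    (rm_matRep_of_scalar ρ ha)

end residual

end Fermat.Agent.S43.TWP
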