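/-
S43 (route TWX), block TWP: the STRICT local contract at a prime `v` where `r` is scalar on the decomposition group:
`L_v = 0`, `h⁰(D_v, ad⁰) = 3 [k : F_p]`, i.e. deficiency `3`.
-/
import Fermat.Agent.S43.TWP.Contract

set_option autoImplicit false

open Matrix Module ExtCitation Polynomial

noncomputable section

namespace Fermat.Agent.S43.TWP

open Fermat.Agent.S53 (G M2)
open Fermat.Agent.S56
open Fermat.Agent.S56.B
open Fermat.Agent.S56.C (ad rm IsCoc IsCob liftMat)
open Fermat.Agent.PT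

variable {k : Type} [Field k]

theorem finrank_Ad0_k : finrank k (Ad0 k) = 3 := by
  have hne : (Matrix.traceLinearMap (Fin 2) k k) ≠ 0 := by
    intro h
    have := congrArg (fun f => f (Matrix.single 0 0 1)) h
    simp at this
  have := Module.Dual.finrank_ker_add_one_of_ne_zero (f := Matrix.traceLinearMap (Fin 2) k k) hne
  rw [Module.finrank_matrix] at this
  simp only [Fintype.card_fin, Module.finrank_self] at this
  have h2 : finrank k (Ad0 k) + 1 = 4 := this
  omega

theorem finrank_Ad0_Fp (p : ℕ) [Fact p.Prime] [Algebra (ZMod p) k] :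
    finrank (ZMod p) (Ad0 k) = 3 * finrank (ZMod p) k := by
  have h := Module.finrank_mul_finrank (ZMod p) k (Ad0 k)
  rw [finrank_Ad0_k] at h
  rw [← h, mul_comm]

/-- `ad g X = X` for a scalar matrix `g`. -/
theorem ad_eq_self_of_scalar {g : GL (Fin 2) k} {a : k} (h : (g : M2 k) = a • (1 : M2 k))
    (X : M2 k) : ad g X = X := by
  have h1 : (g : M2 k) * X = X * (g : M2 k) := by
    rw [h]; simp
  rw [ad, h1, Matrix.mul_assoc, ← Units.val_mul, mul_inv_cancel, Units.val_one, Matrix.mul_one]

theorem invOf_eq_top_of_scalarAt (p : ℕ) [Fact p.Prime] [Algebra (ZMod p) k]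
    {r : G →* GL (Fin 2) k} {v : Nat.Primes} (h : ScalarAt r v) :
    invOf (Dl v) (adFp p r) = ⊤ := by
  rw [eq_top_iff]
  intro X _ σ hσ
  obtain ⟨a, ha⟩ := h σ hσ
  apply Subtype.ext
  rw [coe_adFp]
  exact ad_eq_self_of_scalar ha _

/-- **The strict local contract**: deficiency `3`. -/
theorem strict_localContract (p : ℕ) [Fact p.Prime] [Algebra (ZMod p) k]
    {r : G →* GL (Fin 2) k} {v : Nat.Primes} (h : ScalarAt r v) :
    LocalContractS p r v 0 3 (fun c => StrictAt r c v) := by
  refine ⟨⊥, inferInstance, ?_, fun z hz => ?_⟩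
  · rw [invOf_eq_top_of_scalarAt p h, finrank_top, finrank_bot, finrank_Ad0_Fp p]
    omega
  · rw [Submodule.mem_bot, H1.mk_eq_zero_iff, mem_B1_iff z.2]
    obtain ⟨X, hX, hc⟩ := hz
    refine ⟨⟨X, mem_Ad0.2 hX⟩, fun σ hσ => ?_⟩
    apply Subtype.ext
    have := hc σ hσ.2
    rw [inhOf_apply] at this
    rw [this, Submodule.coe_sub, coe_adFp]

end Fermat.Agent.S43.TWP
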